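import Mathlib

/-!
# CRUX: a nontrivial valuation subring of a number field is a discrete valuation ring
-/

set_option autoImplicit false

open IsDedekindDomain

namespace Fermat.Agent.Crux

theorem mem_of_isIntegral_int {K : Type*} [Field K] (V : ValuationSubring K) {x : K}
    (hx : IsIntegral ℤ x) : x ∈ V := by
  have h1 : IsIntegral V x := hx.tower_top
  obtain ⟨y, rfl⟩ := IsIntegrallyClosed.isIntegral_iff.mp h1
  exact y.2

theorem isDiscreteValuationRing_of_numberField {K : Type*} [Field K] [NumberField K]
    (V : ValuationSubring K) (hV : V ≠ ⊤) : IsDiscreteValuationRing V := by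
  classical
  let φ : NumberField.RingOfIntegers K →+* V :=
    { toFun := fun a => ⟨(a : K), mem_of_isIntegral_int V a.2⟩
      map_one' := rfl
      map_mul' := fun _ _ => rfl
      map_zero' := rfl
      map_add' := fun _ _ => rfl }
  let 𝔭 : Ideal (NumberField.RingOfIntegers K) := (IsLocalRing.maximalIdeal V).comap φ
  have h𝔭 : 𝔭.IsPrime := Ideal.comap_isPrime φ _
  have hne : 𝔭 ≠ ⊥ := by
    obtain ⟨x, hx⟩ : ∃ x : K, x ∉ V := by
      by_contra hcon
      push Not at hcon
      exact hV (eq_top_iff.mpr fun x _ => hcon x)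
    have hx0 : x ≠ 0 := by
      rintro rfl
      exact hx V.zero_mem
    have hxi : x⁻¹ ∈ V := (V.mem_or_inv_mem x).resolve_left hx
    obtain ⟨a, b, hb, hab⟩ := IsFractionRing.div_surjective (A := NumberField.RingOfIntegers K) x⁻¹
    have hb0 : algebraMap (NumberField.RingOfIntegers K) K b ≠ 0 := by
      simpa using nonZeroDivisors.ne_zero hb
    have ha0 : a ≠ 0 := by
      rintro rfl
      rw [map_zero, zero_div] at hab
      exact inv_ne_zero hx0 hab.symm
    intro hbot
    apply ha0
    have : a ∈ 𝔭 := by
      show φ a ∈ IsLocalRing.maximalIdeal V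
      rw [IsLocalRing.mem_maximalIdeal, mem_nonunits_iff]
      intro hu
      have h1 : φ a = ⟨x⁻¹, hxi⟩ * φ b := by
        apply Subtype.ext
        show algebraMap (NumberField.RingOfIntegers K) K a
          = x⁻¹ * algebraMap (NumberField.RingOfIntegers K) K b
        rw [← hab, div_mul_cancel₀ _ hb0]
      rw [h1] at hu
      have h2 : IsUnit (⟨x⁻¹, hxi⟩ : V) := isUnit_of_mul_isUnit_left hu
      obtain ⟨w, hw⟩ := h2.exists_right_inv
      have hw' : x⁻¹ * (w : K) = 1 := congrArg Subtype.val hw
      apply hx
      have : x = w := by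
        field_simp at hw'
        exact hw'.symm
      rw [this]
      exact w.2
    rwa [hbot, Ideal.mem_bot] at this
  let v : HeightOneSpectrum (NumberField.RingOfIntegers K) := ⟨𝔭, h𝔭, hne⟩
  have hle : HeightOneSpectrum.valuationSubringAtPrime K v ≤ V := by
    rintro x ⟨a, s, hs, rfl⟩
    have hs' : IsUnit (φ s) := by
      by_contra hu
      exact hs ((IsLocalRing.mem_maximalIdeal _).mpr hu)
    obtain ⟨w, hw⟩ := hs'.exists_right_inv
    have hw' : algebraMap (NumberField.RingOfIntegers K) K s * (w : K) = 1 :=
      congrArg Subtype.val hw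
    have : (algebraMap (NumberField.RingOfIntegers K) K s)⁻¹ = w :=
      inv_eq_of_mul_eq_one_right hw'
    rw [this]
    exact V.mul_mem _ _ (φ a).2 w.2
  have heq := ValuationSubring.eq_of_le_of_ne_top _ hle hV
  rw [← heq]
  clear_value v
  exact IsLocalization.AtPrime.isDiscreteValuationRing_of_dedekind_domain
    (NumberField.RingOfIntegers K) (P := v.asIdeal) v.ne_bot
    (HeightOneSpectrum.valuationSubringAtPrime K v)

end Fermat.Agent.Crux
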