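import Fermat.Agent.ES.B.Pivot
import Fermat.Agent.Crux.Dvr

/-!
# CRUX: auxiliary lemmas for the descent `(ℚ̄, A) → (K₀, A₀)`
-/

set_option autoImplicit false

open AlgebraicCurve ModularCurve

namespace Fermat.Agent.Crux

open Fermat.Agent.ES

noncomputable section

section Series

theorem coeffMap_injective {R S : Type*} [CommRing R] [CommRing S] (f : R →+* S)
    (hf : Function.Injective f) : Function.Injective (coeffMap f) := by
  intro x y h
  ext n
  have := congrArg (fun s => s.coeff n) h
  exact hf (by simpa [coeffMap_coeff] using this)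

theorem exists_series_lift {K : Type*} [Field K] (V : ValuationSubring K) (u : LaurentSeries K)
    (h : ∀ n, u.coeff n ∈ V) : ∃ z : LaurentSeries V, coeffMap V.subtype z = u := by
  refine ⟨{ coeff := fun n => ⟨u.coeff n, h n⟩
            isPWO_support' := ?_ }, ?_⟩
  · refine u.isPWO_support.mono ?_
    intro n hn hn0
    apply hn
    apply Subtype.ext
    exact hn0
  · ext n
    rfl

theorem order_coeffMap {R S : Type*} [CommRing R] [CommRing S] (f : R →+* S)
    (hf : Function.Injective f) (x : LaurentSeries R) : (coeffMap f x).order = x.order := by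
  by_cases hx : x = 0
  · rw [hx, map_zero, HahnSeries.order_zero, HahnSeries.order_zero]
  have hx' : coeffMap f x ≠ 0 := fun h => hx (coeffMap_injective f hf (by rw [h, map_zero]))
  apply le_antisymm
  · apply HahnSeries.order_le_of_coeff_ne_zero
    rw [coeffMap_coeff]
    intro h
    exact hx (HahnSeries.coeff_order_eq_zero.mp (hf (by rw [h, map_zero])))
  · apply HahnSeries.order_le_of_coeff_ne_zero
    intro h
    apply hx'
    apply HahnSeries.coeff_order_eq_zero.mp
    rw [coeffMap_coeff, h, map_zero]

theorem leadingCoeff_coeffMap {R S : Type*} [CommRing R] [CommRing S] (f : R →+* S)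
    (hf : Function.Injective f) (x : LaurentSeries R) :
    (coeffMap f x).leadingCoeff = f x.leadingCoeff := by
  rw [HahnSeries.leadingCoeff_eq, HahnSeries.leadingCoeff_eq, order_coeffMap f hf, coeffMap_coeff]

end Series

section Residue

variable {K : Type*} [Field K]

theorem isUnit_iff_inv_mem (V : ValuationSubring K) (a : V) (ha : (a : K) ≠ 0) :
    IsUnit a ↔ (a : K)⁻¹ ∈ V := by
  constructor
  · intro h
    obtain ⟨w, hw⟩ := h.exists_right_inv
    have hw' : (a : K) * (w : K) = 1 := congrArg Subtype.val hw
    rw [inv_eq_of_mul_eq_one_right hw']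
    exact w.2
  · intro h
    exact IsUnit.of_mul_eq_one ⟨_, h⟩ (Subtype.ext (mul_inv_cancel₀ ha))

theorem residue_eq_zero_iff_not_inv_mem (V : ValuationSubring K) (a : V) :
    IsLocalRing.residue V a = 0 ↔ ((a : K) = 0 ∨ (a : K)⁻¹ ∉ V) := by
  rw [IsLocalRing.residue_eq_zero_iff, IsLocalRing.mem_maximalIdeal, mem_nonunits_iff]
  by_cases ha : (a : K) = 0
  · have : a = 0 := Subtype.ext ha
    simp [this]
  · rw [isUnit_iff_inv_mem V a ha]
    simp [ha]

/-- The residue maps of `V` and of `V.comap φ` have "the same kernel". -/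
theorem residue_comap_eq_zero_iff {K' : Type*} [Field K'] (φ : K →+* K') (V : ValuationSubring K')
    (a : V.comap φ) (b : V) (hab : φ (a : K) = b) :
    IsLocalRing.residue (V.comap φ) a = 0 ↔ IsLocalRing.residue V b = 0 := by
  rw [residue_eq_zero_iff_not_inv_mem, residue_eq_zero_iff_not_inv_mem, ← hab,
    ValuationSubring.mem_comap, map_inv₀, map_eq_zero]

theorem perfectField_residueField [CharZero K] [Algebra.IsAlgebraic ℚ K] (V : ValuationSubring K)
    (ℓ : ℕ) (hℓ : ℓ.Prime) (hV : IsLocalRing.residue V (ℓ : V) = 0) :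
    PerfectField (IsLocalRing.ResidueField V) := by
  have : Fact ℓ.Prime := ⟨hℓ⟩
  have hchar : CharP (IsLocalRing.ResidueField V) ℓ := by
    obtain ⟨p, hp⟩ := CharP.exists (IsLocalRing.ResidueField V)
    have h1 : p ∣ ℓ := by
      rw [← CharP.cast_eq_zero_iff (IsLocalRing.ResidueField V) p ℓ]
      rw [← hV, map_natCast]
    rcases (Nat.dvd_prime hℓ).mp h1 with h | h
    · exact absurd h (CharP.char_ne_one (IsLocalRing.ResidueField V) p)
    · rwa [h] at hp
  let _ := ZMod.algebra (IsLocalRing.ResidueField V) ℓ
  have halg : Algebra.IsAlgebraic (ZMod ℓ) (IsLocalRing.ResidueField V) := by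
    refine ⟨fun xb => ?_⟩
    obtain ⟨x, rfl⟩ := IsLocalRing.residue_surjective xb
    have h1 : IsAlgebraic ℤ (x : K) :=
      (IsFractionRing.isAlgebraic_iff ℤ ℚ K).mpr (Algebra.IsAlgebraic.isAlgebraic _)
    obtain ⟨P, hP0, hP⟩ := h1
    have hP' := Polynomial.aeval_primPart_eq_zero hP0 hP
    refine ⟨P.primPart.map (Int.castRingHom (ZMod ℓ)), ?_, ?_⟩
    · intro h0
      have h2 : Polynomial.C (ℓ : ℤ) ∣ P.primPart := by
        rw [Polynomial.C_dvd_iff_dvd_coeff]
        intro i
        have := congrArg (fun Q => Q.coeff i) h0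
        simp only [Polynomial.coeff_map, Polynomial.coeff_zero, eq_intCast] at this
        exact (ZMod.intCast_zmod_eq_zero_iff_dvd _ _).mp this
      have h3 := P.isPrimitive_primPart _ h2
      rw [Int.isUnit_iff] at h3
      have := hℓ.one_lt
      omega
    · rw [Polynomial.aeval_def, Polynomial.eval₂_map,
        RingHom.ext_int ((algebraMap (ZMod ℓ) (IsLocalRing.ResidueField V)).comp
          (Int.castRingHom (ZMod ℓ)))
          ((IsLocalRing.residue V).comp (Int.castRingHom V)),
        ← Polynomial.hom_eval₂]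
      have h4 : Polynomial.eval₂ (Int.castRingHom V) x P.primPart = 0 := by
        apply Subtype.val_injective
        have h5 := Polynomial.hom_eval₂ P.primPart (Int.castRingHom V) V.subtype x
        rw [RingHom.ext_int (V.subtype.comp (Int.castRingHom V)) (algebraMap ℤ K)] at h5
        exact h5.trans hP'
      rw [h4, map_zero]
  exact Algebra.IsAlgebraic.perfectField (K := ZMod ℓ)

end Residue

end

end Fermat.Agent.Crux
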