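import Fermat.Agent.Crux.Reduce
import Fermat.Agent.Crux.DescentAux

/-!
# CRUX: the descent `(ℚ̄, A) → (K₀, A₀)`, `K₀` a number field, `A₀ = A ∩ K₀` a DVR
-/

set_option autoImplicit false

open AlgebraicCurve ModularCurve

namespace Fermat.Agent.Crux

open Fermat.Agent.ES

noncomputable section

theorem jSer_eq (d : ℕ) [NeZero d] : S24.jSer d = qExpand Qb d (jqModC Qb) := by
  rw [S24.jSer, coeffEmb, coeffMap_qExpand]
  congr 1
  exact coeffMap_jqModC (algebraMap ℚ Qb)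

section Model

variable (K : Type*) [Field K] [Algebra K Qb]

theorem coeffMap_algebraMap' (c : K) :
    coeffMap (algebraMap K Qb) (algebraMap K (LaurentSeries K) c)
      = algebraMap Qb (LaurentSeries Qb) (algebraMap K Qb c) := by
  rw [algebraMap_laurentSeries_eq_single, algebraMap_laurentSeries_eq_single, coeffMap_single]

theorem coeffMap_jd (d : ℕ) [NeZero d] :
    coeffMap (algebraMap K Qb) (qExpand K d (jqModC K)) = S24.jSer d := by
  rw [jSer_eq, coeffMap_qExpand, coeffMap_jqModC]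

/-- Base change `K → ℚ̄` maps the function field over `K` into the function field over `ℚ̄`. -/
theorem coeffMap_mem_bar (N : ℕ) [NeZero N] {x : LaurentSeries K}
    (hx : x ∈ modularFunctionFieldFullC K N) :
    coeffMap (algebraMap K Qb) x ∈ modularFunctionFieldBar N := by
  have hx' : x ∈ Subfield.closure
      (Set.range (algebraMap K (LaurentSeries K)) ∪ divisorExpansionsC K N) := hx
  have hle : Subfield.closure
      (Set.range (algebraMap K (LaurentSeries K)) ∪ divisorExpansionsC K N) ≤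
      (modularFunctionFieldBar N).toSubfield.comap (coeffMap (algebraMap K Qb)) := by
    rw [Subfield.closure_le]
    rintro y (⟨c, rfl⟩ | ⟨d, hd0, hd, rfl⟩)
    · show coeffMap (algebraMap K Qb) _ ∈ modularFunctionFieldBar N
      rw [coeffMap_algebraMap']
      exact IntermediateField.algebraMap_mem _ _
    · show coeffMap (algebraMap K Qb) _ ∈ modularFunctionFieldBar N
      rw [coeffMap_jd]
      exact S24.jSer_mem N d hd
  exact hle hx'

theorem coeffMap_aeval_map (N : ℕ) [NeZero N] (p : MvPolynomial (S24.Dv N) K) :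
    coeffMap (algebraMap K Qb)
        (MvPolynomial.aeval (fun d : S24.Dv N => qExpand K d.1 (jqModC K)) p)
      = MvPolynomial.aeval (fun d : S24.Dv N => S24.jSer d.1)
          (MvPolynomial.map (algebraMap K Qb) p) := by
  rw [MvPolynomial.map_aeval, MvPolynomial.aeval_def, MvPolynomial.eval₂_map,
    MvPolynomial.coe_eval₂Hom]
  congr 1
  · exact RingHom.ext fun c => coeffMap_algebraMap' K c
  · funext d
    exact coeffMap_jd K d.1

omit [Algebra K Qb] in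
theorem aeval_mem_fullC (N : ℕ) [NeZero N] (p : MvPolynomial (S24.Dv N) K) :
    MvPolynomial.aeval (fun d : S24.Dv N => qExpand K d.1 (jqModC K)) p
      ∈ modularFunctionFieldFullC K N := by
  have h : ∀ d : S24.Dv N, qExpand K d.1 (jqModC K) ∈ modularFunctionFieldFullC K N :=
    fun d => jqModCd_mem_full K N d.2
  have := MvPolynomial.comp_aeval_apply
    (f := fun d : S24.Dv N => (⟨_, h d⟩ : modularFunctionFieldFullC K N))
    (modularFunctionFieldFullC K N).val p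
  have h2 : MvPolynomial.aeval (fun d : S24.Dv N => qExpand K d.1 (jqModC K)) p
      = (modularFunctionFieldFullC K N).val (MvPolynomial.aeval
        (fun d : S24.Dv N => (⟨_, h d⟩ : modularFunctionFieldFullC K N)) p) := this.symm
  rw [h2]
  exact SetLike.coe_mem _

end Model

/-- Every element of `F_N` given by polynomials with coefficients in `K` comes from `K`. -/
theorem exists_model (N : ℕ) [NeZero N] (K : Type*) [Field K] [Algebra K Qb] (f : FF N)
    (p q : MvPolynomial (S24.Dv N) Qb) (hf : f = S24.phiF N p / S24.phiF N q)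
    (hp : ∀ c ∈ p.coeffs, c ∈ Set.range (algebraMap K Qb))
    (hq : ∀ c ∈ q.coeffs, c ∈ Set.range (algebraMap K Qb)) :
    ∃ u ∈ modularFunctionFieldFullC K N,
      coeffMap (algebraMap K Qb) u = (f : LaurentSeries Qb) := by
  have lift : ∀ r : MvPolynomial (S24.Dv N) Qb, (∀ c ∈ r.coeffs, c ∈ Set.range (algebraMap K Qb)) →
      ∃ r' : MvPolynomial (S24.Dv N) K, MvPolynomial.map (algebraMap K Qb) r' = r := by
    intro r hr
    have : r ∈ Set.range (MvPolynomial.map (σ := S24.Dv N) (algebraMap K Qb)) := by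
      rw [MvPolynomial.mem_range_map_iff_coeffs_subset]
      intro c hc
      exact hr c hc
    exact this
  obtain ⟨p', hp'⟩ := lift p hp
  obtain ⟨q', hq'⟩ := lift q hq
  refine ⟨MvPolynomial.aeval (fun d : S24.Dv N => qExpand K d.1 (jqModC K)) p' /
    MvPolynomial.aeval (fun d : S24.Dv N => qExpand K d.1 (jqModC K)) q',
    div_mem (aeval_mem_fullC K N p') (aeval_mem_fullC K N q'), ?_⟩
  rw [map_div₀, coeffMap_aeval_map, coeffMap_aeval_map, hp', hq', hf,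
    ← S24.Gen.coe_phiF, ← S24.Gen.coe_phiF]
  rfl

/-- The statement over a discrete valuation ring `A` with fraction field `K ⊆ ℚ̄` containing a given
finite set `T ⊆ ℚ̄`, for fixed level `M`, residue characteristic `ℓ` and exponent `d`; to be provided
by `Crux/GM` or `Crux/GT`. -/
def CoreKAt (M ℓ d : ℕ) [NeZero M] (T : Finset Qb) : Prop :=
  ∀ {A K k : Type} [CommRing A] [IsDomain A] [IsDiscreteValuationRing A] [Field K]
    [Algebra A K] [IsFractionRing A K] [Algebra K Qb] [Field k] [PerfectField k]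
    (r : A →+* k), Function.Surjective r → r ℓ = 0 →
    (∀ c ∈ T, c ∈ Set.range (algebraMap K Qb)) →
  ∀ y₁ y₂ : LaurentSeries A,
    coeffMap (algebraMap A K) y₁ ∈ modularFunctionFieldFullC K M →
    coeffMap (algebraMap A K) y₂ ∈ modularFunctionFieldFullC K M →
    coeffMap r y₁ = coeffMap r y₂ → coeffMap r y₂ ≠ 0 →
    (∃ c : K, c ^ d =
      (coeffMap (algebraMap A K) y₁ / coeffMap (algebraMap A K) y₂).leadingCoeff) →
  ∀ W' : FF M,
    (W' : LaurentSeries Qb) = coeffMap (algebraMap K Qb)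
      (coeffMap (algebraMap A K) y₁ / coeffMap (algebraMap A K) y₂) →
    (∀ P : Place Qb (FF M), (d : ℤ) ∣ P.ord W') →
    ∃ s ∈ modularFunctionFieldFullC K M,
      s ^ d = coeffMap (algebraMap A K) y₁ / coeffMap (algebraMap A K) y₂

theorem residue_natCast_eq_zero {ℓ : ℕ} (A : ValuationSubring Qb) (hA : A.LiesOverPrime ℓ) :
    IsLocalRing.residue A (ℓ : A) = 0 := by
  rw [IsLocalRing.residue_eq_zero_iff]
  have h1 : (ℓ : Qb) ∈ A.nonunits := hA
  rw [ValuationSubring.mem_nonunits_iff_exists_mem_maximalIdeal] at h1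
  obtain ⟨ha, h2⟩ := h1
  have : (ℓ : A) = ⟨(ℓ : Qb), ha⟩ := Subtype.ext (by simp)
  rw [this]
  exact h2

section Step

variable (K₀ : Type*) [Field K₀] [Algebra K₀ Qb] (A : ValuationSubring Qb)

/-- `A₀ = A ∩ K₀`. -/
abbrev A0 : ValuationSubring K₀ := A.comap (algebraMap K₀ Qb)

theorem residue_A0_natCast {ℓ : ℕ} (hA : A.LiesOverPrime ℓ) :
    IsLocalRing.residue (A0 K₀ A) (ℓ : A0 K₀ A) = 0 :=
  (residue_comap_eq_zero_iff (algebraMap K₀ Qb) A (ℓ : A0 K₀ A) (ℓ : A) (by simp)).mpr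
    (residue_natCast_eq_zero A hA)

theorem A0_ne_top {ℓ : ℕ} (hℓ : ℓ.Prime) (hA : A.LiesOverPrime ℓ) : A0 K₀ A ≠ ⊤ := by
  intro htop
  have h1 := (residue_eq_zero_iff_not_inv_mem (A0 K₀ A) (ℓ : A0 K₀ A)).mp
    (residue_A0_natCast K₀ A hA)
  rcases h1 with h1 | h1
  · have h2 : ((ℓ : ℕ) : K₀) = 0 := by simpa using h1
    have h3 : ((ℓ : ℕ) : Qb) = 0 := by rw [← map_natCast (algebraMap K₀ Qb), h2, map_zero]
    exact hℓ.ne_zero (by exact_mod_cast h3)
  · exact h1 (by rw [htop]; trivial)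

/-- Series over `K₀` whose base change to `ℚ̄` is `A`-integral are `A₀`-integral. -/
theorem exists_A0_series (u : LaurentSeries K₀) (y : LaurentSeries A)
    (h : coeffMap (algebraMap K₀ Qb) u = coeffMap A.subtype y) :
    ∃ z : LaurentSeries (A0 K₀ A), coeffMap (algebraMap (A0 K₀ A) K₀) z = u ∧
      ∀ n, algebraMap K₀ Qb ((z.coeff n : A0 K₀ A) : K₀) = (y.coeff n : A) := by
  have hn : ∀ n, algebraMap K₀ Qb (u.coeff n) = (y.coeff n : A) := by
    intro n
    have := congrArg (fun s => s.coeff n) h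
    exact this
  obtain ⟨z, hz⟩ := exists_series_lift (A0 K₀ A) u (by
    intro n
    show algebraMap K₀ Qb (u.coeff n) ∈ A
    rw [hn n]
    exact (y.coeff n).2)
  refine ⟨z, hz, fun n => ?_⟩
  rw [← hn n, ← hz]
  rfl

theorem coeffMap_residue_A0_eq (z₁ z₂ : LaurentSeries (A0 K₀ A)) (y₁ y₂ : LaurentSeries A)
    (h₁ : ∀ n, algebraMap K₀ Qb ((z₁.coeff n : A0 K₀ A) : K₀) = (y₁.coeff n : A))
    (h₂ : ∀ n, algebraMap K₀ Qb ((z₂.coeff n : A0 K₀ A) : K₀) = (y₂.coeff n : A))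
    (hred : coeffMap (IsLocalRing.residue A) y₁ = coeffMap (IsLocalRing.residue A) y₂) :
    coeffMap (IsLocalRing.residue (A0 K₀ A)) z₁ = coeffMap (IsLocalRing.residue (A0 K₀ A)) z₂ := by
  ext n
  rw [coeffMap_coeff, coeffMap_coeff, ← sub_eq_zero, ← map_sub,
    residue_comap_eq_zero_iff (algebraMap K₀ Qb) A _ (y₁.coeff n - y₂.coeff n) (by
      show algebraMap K₀ Qb ((z₁.coeff n : K₀) - (z₂.coeff n : K₀))
        = (y₁.coeff n : Qb) - (y₂.coeff n : Qb)
      rw [map_sub, h₁ n, h₂ n]),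
    map_sub, sub_eq_zero]
  have := congrArg (fun s => s.coeff n) hred
  simpa only [coeffMap_coeff] using this

theorem coeffMap_residue_A0_ne_zero (z : LaurentSeries (A0 K₀ A)) (y : LaurentSeries A)
    (h : ∀ n, algebraMap K₀ Qb ((z.coeff n : A0 K₀ A) : K₀) = (y.coeff n : A))
    (hne : coeffMap (IsLocalRing.residue A) y ≠ 0) :
    coeffMap (IsLocalRing.residue (A0 K₀ A)) z ≠ 0 := by
  intro h0
  apply hne
  ext n
  have := congrArg (fun s => s.coeff n) h0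
  simp only [coeffMap_coeff, HahnSeries.coeff_zero] at this
  rw [coeffMap_coeff, HahnSeries.coeff_zero]
  exact (residue_comap_eq_zero_iff (algebraMap K₀ Qb) A _ _ (h n)).mp this

end Step

theorem core_step (N ℓ d : ℕ) [NeZero N] (T : Finset Qb) (hK : CoreKAt N ℓ d T) (hℓ : ℓ.Prime)
    (A : ValuationSubring Qb)
    (hA : A.LiesOverPrime ℓ) (y₁ y₂ : LaurentSeries A)
    (h₁ : coeffMap A.subtype y₁ ∈ modularFunctionFieldBar N)
    (h₂ : coeffMap A.subtype y₂ ∈ modularFunctionFieldBar N)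
    (hred : coeffMap (IsLocalRing.residue A) y₁ = coeffMap (IsLocalRing.residue A) y₂)
    (hne : coeffMap (IsLocalRing.residue A) y₂ ≠ 0)
    (hdiv : ∀ P : Place Qb (FF N), (d : ℤ) ∣ P.ord ((⟨_, h₁⟩ : FF N) / ⟨_, h₂⟩))
    (K₀ : Type) [Field K₀] [NumberField K₀] [Algebra K₀ Qb]
    (hT : ∀ c ∈ T, c ∈ Set.range (algebraMap K₀ Qb))
    (u₁ u₂ : LaurentSeries K₀)
    (hu₁ : u₁ ∈ modularFunctionFieldFullC K₀ N) (hu₂ : u₂ ∈ modularFunctionFieldFullC K₀ N)
    (hu₁' : coeffMap (algebraMap K₀ Qb) u₁ = coeffMap A.subtype y₁)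
    (hu₂' : coeffMap (algebraMap K₀ Qb) u₂ = coeffMap A.subtype y₂)
    (c₀ : K₀)
    (hc₀ : (algebraMap K₀ Qb c₀) ^ d
      = (coeffMap A.subtype y₁ / coeffMap A.subtype y₂).leadingCoeff) :
    ∃ s : FF N, s ^ d = (⟨_, h₁⟩ : FF N) / ⟨_, h₂⟩ := by
  have hφ : Function.Injective (algebraMap K₀ Qb) := (algebraMap K₀ Qb).injective
  have hdvr : IsDiscreteValuationRing (A0 K₀ A) :=
    isDiscreteValuationRing_of_numberField _ (A0_ne_top K₀ A hℓ hA)
  have hperf : PerfectField (IsLocalRing.ResidueField (A0 K₀ A)) :=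
    perfectField_residueField _ ℓ hℓ (residue_A0_natCast K₀ A hA)
  obtain ⟨z₁, hz₁, hz₁'⟩ := exists_A0_series K₀ A u₁ y₁ hu₁'
  obtain ⟨z₂, hz₂, hz₂'⟩ := exists_A0_series K₀ A u₂ y₂ hu₂'
  have hW : coeffMap (algebraMap K₀ Qb)
      (coeffMap (algebraMap (A0 K₀ A) K₀) z₁ / coeffMap (algebraMap (A0 K₀ A) K₀) z₂)
      = coeffMap A.subtype y₁ / coeffMap A.subtype y₂ := by
    rw [map_div₀, hz₁, hz₂, hu₁', hu₂']
  have hK3 := hK (A := A0 K₀ A) (K := K₀) (k := IsLocalRing.ResidueField (A0 K₀ A))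
    (IsLocalRing.residue (A0 K₀ A)) IsLocalRing.residue_surjective
    (residue_A0_natCast K₀ A hA) hT z₁ z₂
  have e1 : coeffMap (algebraMap (A0 K₀ A) K₀) z₁ ∈ modularFunctionFieldFullC K₀ N := by
    rw [hz₁]; exact hu₁
  have e2 : coeffMap (algebraMap (A0 K₀ A) K₀) z₂ ∈ modularFunctionFieldFullC K₀ N := by
    rw [hz₂]; exact hu₂
  have hK4 := hK3 e1 e2
  have hK5 := hK4 (coeffMap_residue_A0_eq K₀ A z₁ z₂ y₁ y₂ hz₁' hz₂' hred)
    (coeffMap_residue_A0_ne_zero K₀ A z₂ y₂ hz₂' hne)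
  have e3 : ∃ c : K₀, c ^ d = (coeffMap (algebraMap (A0 K₀ A) K₀) z₁ /
      coeffMap (algebraMap (A0 K₀ A) K₀) z₂).leadingCoeff := by
    refine ⟨c₀, ?_⟩
    apply hφ
    rw [map_pow, ← leadingCoeff_coeffMap _ hφ, hW, ← hc₀]
  have hK6 := hK5 e3
  have e4 : (((⟨_, h₁⟩ : FF N) / ⟨_, h₂⟩ : FF N) : LaurentSeries Qb) = coeffMap (algebraMap K₀ Qb)
      (coeffMap (algebraMap (A0 K₀ A) K₀) z₁ / coeffMap (algebraMap (A0 K₀ A) K₀) z₂) := by
    rw [IntermediateField.coe_div]; exact hW.symm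
  have hK7 := hK6 ((⟨_, h₁⟩ : FF N) / ⟨_, h₂⟩)
  have hK8 := hK7 e4
  obtain ⟨s, hs, hsd⟩ := hK8 hdiv
  refine ⟨⟨coeffMap (algebraMap K₀ Qb) s, coeffMap_mem_bar K₀ N hs⟩, ?_⟩
  apply Subtype.ext
  rw [IntermediateField.coe_pow, IntermediateField.coe_div]
  show (coeffMap (algebraMap K₀ Qb) s) ^ d = coeffMap A.subtype y₁ / coeffMap A.subtype y₂
  rw [← map_pow, hsd, hW]

/-- **The descent** `(ℚ̄, A) → (K₀, A₀)`. -/
theorem crux_of_coreKAt (N ℓ d : ℕ) [NeZero N] (T : Finset Qb) (hK : CoreKAt N ℓ d T)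
    (hℓ : ℓ.Prime) (hd : 0 < d) : Crux N ℓ d := by
  classical
  intro A hA y₁ y₂ h₁ h₂ hred hne hdiv
  obtain ⟨p₁, q₁, -, hf₁⟩ := S24.exists_phiF_div N ⟨_, h₁⟩
  obtain ⟨p₂, q₂, -, hf₂⟩ := S24.exists_phiF_div N ⟨_, h₂⟩
  obtain ⟨c₀, hc₀⟩ := IsAlgClosed.exists_pow_nat_eq
    (coeffMap A.subtype y₁ / coeffMap A.subtype y₂).leadingCoeff hd
  -- the number field
  obtain ⟨K₀, hfin, hS⟩ : ∃ K₀ : IntermediateField ℚ Qb, FiniteDimensional ℚ K₀ ∧
      ∀ c ∈ p₁.coeffs ∪ q₁.coeffs ∪ p₂.coeffs ∪ q₂.coeffs ∪ {c₀} ∪ T, c ∈ K₀ :=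
    ⟨IntermediateField.adjoin ℚ
      ((p₁.coeffs ∪ q₁.coeffs ∪ p₂.coeffs ∪ q₂.coeffs ∪ {c₀} ∪ T : Finset Qb) : Set Qb),
      IntermediateField.finiteDimensional_adjoin fun x _ =>
        ((AlgebraicClosure.isAlgebraic ℚ).isAlgebraic x).isIntegral,
      fun c hc => IntermediateField.subset_adjoin _ _ (Finset.mem_coe.mpr hc)⟩
  have hnf : NumberField K₀ := ⟨⟩
  have hS' : ∀ c ∈ p₁.coeffs ∪ q₁.coeffs ∪ p₂.coeffs ∪ q₂.coeffs ∪ {c₀} ∪ T,
      c ∈ Set.range (algebraMap K₀ Qb) := fun c hc => ⟨⟨c, hS c hc⟩, rfl⟩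
  obtain ⟨u₁, hu₁, hu₁'⟩ := exists_model N K₀ _ p₁ q₁ hf₁
    (fun c hc => hS' c (by simp only [Finset.mem_union]; tauto))
    (fun c hc => hS' c (by simp only [Finset.mem_union]; tauto))
  obtain ⟨u₂, hu₂, hu₂'⟩ := exists_model N K₀ _ p₂ q₂ hf₂
    (fun c hc => hS' c (by simp only [Finset.mem_union]; tauto))
    (fun c hc => hS' c (by simp only [Finset.mem_union]; tauto))
  exact core_step N ℓ d T hK hℓ A hA y₁ y₂ h₁ h₂ hred hne hdiv K₀
    (fun c hc => hS' c (by simp only [Finset.mem_union]; tauto)) u₁ u₂ hu₁ hu₂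
    hu₁' hu₂' ⟨c₀, hS c₀ (by simp)⟩ hc₀

/-- **CRUX** from its version over discrete valuation rings of number fields, for prime exponents
and admissible levels. -/
theorem crux_of_coreK
    (hK : ∀ (M ℓ d : ℕ) [NeZero M], ℓ.Prime → d.Prime → d ≠ ℓ → ¬ ℓ ∣ M → Admissible ℓ M →
      ∃ T : Finset Qb, CoreKAt M ℓ d T)
    (N ℓ m : ℕ) [NeZero N] (hℓ : ℓ.Prime) (hN : ¬ ℓ ∣ N) (hm : ¬ ℓ ∣ m) : Crux N ℓ m := by
  refine crux_of_core ?_ N ℓ m hℓ hN hm
  intro M ℓ' d _ hℓ' hd hdℓ hM hadm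
  obtain ⟨T, hT⟩ := hK M ℓ' d hℓ' hd hdℓ hM hadm
  exact crux_of_coreKAt M ℓ' d T hT hℓ' hd.pos

end

end Fermat.Agent.Crux
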