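import Fermat.Agent.ES.Defs
import Fermat.Agent.S24.Packages
import Fermat.Agent.Gamma0Comb.Index
import Fermat.Prelude.Def_AlgebraicCurve_Correspondence

/-!
# CRUX: descent of the level

If `N ∣ M` and `[F_M : F_N]` is prime to `m`, then `ES.Crux M ℓ m` implies `ES.Crux N ℓ m`
(norm trick: `s ^ m = h` with `s ∈ F_M`, `h ∈ F_N` gives `Norm(s) ^ m = h ^ [F_M : F_N]`).
As `[F_{2N} : F_N] = 3` for odd `N` and `[F_{3N} : F_N] = 4` for `3 ∤ N`, this brings the cases
`ℓ = 3` and `ℓ = 2` back to levels divisible by `2`, resp. `3`.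
-/

set_option autoImplicit false

open AlgebraicCurve ModularCurve IntermediateField

namespace Fermat.Agent.Crux

open Fermat.Agent.ES

noncomputable section

section Abstract

variable {K Ω : Type*} [Field K] [Field Ω] [Algebra K Ω] (F E : IntermediateField K Ω)

theorem isIntegral_inclusion (h : F ≤ E) (hn : F.relfinrank E ≠ 0) :
    (IntermediateField.inclusion h).toRingHom.IsIntegral := by
  intro x
  have : FiniteDimensional F (extendScalars h) := Module.finite_of_finrank_pos (by
    rw [← relfinrank_eq_finrank_of_le]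
    omega)
  have hx : IsIntegral F (⟨x.1, x.2⟩ : extendScalars h) := Algebra.IsIntegral.isIntegral _
  obtain ⟨p, hp, hpx⟩ := hx
  refine ⟨p, hp, ?_⟩
  apply Subtype.val_injective
  have h1 := congrArg ((extendScalars h).val : extendScalars h →+* Ω) hpx
  rw [Polynomial.hom_eval₂, map_zero] at h1
  have h2 := Polynomial.hom_eval₂ p (IntermediateField.inclusion h).toRingHom
    (E.val : E →+* Ω) x
  exact h2.trans h1

/-- The norm trick. -/
theorem exists_root_of_coprime (h : F ≤ E) (m : ℕ) (hcop : Nat.Coprime (F.relfinrank E) m)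
    (y : F) (s : E) (hs : (s : Ω) ^ m = y) : ∃ t : F, t ^ m = y := by
  by_cases hy : y = 0
  · subst hy
    refine ⟨0, ?_⟩
    rcases Nat.eq_zero_or_pos m with rfl | hm
    · simp at hs
    · exact zero_pow hm.ne'
  set n := F.relfinrank E with hn
  have hn' : n = Module.finrank F (extendScalars h) := relfinrank_eq_finrank_of_le h
  let s' : extendScalars h := ⟨s.1, s.2⟩
  have hs' : s' ^ m = algebraMap F (extendScalars h) y := Subtype.ext hs
  have h1 : (Algebra.norm F s') ^ m = y ^ n := by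
    rw [← map_pow, hs', Algebra.norm_algebraMap, hn']
  have h2 : (n : ℤ) * Nat.gcdA n m + m * Nat.gcdB n m = 1 := by
    have := Nat.gcd_eq_gcd_ab n m
    rw [hcop] at this
    exact_mod_cast this.symm
  refine ⟨(Algebra.norm F s') ^ (Nat.gcdA n m) * y ^ (Nat.gcdB n m), ?_⟩
  rw [mul_pow, ← zpow_natCast, ← zpow_natCast, ← zpow_mul, ← zpow_mul, mul_comm (Nat.gcdA n m),
    zpow_mul, zpow_natCast, h1, ← zpow_natCast, ← zpow_mul, ← zpow_add₀ hy,
    mul_comm (Nat.gcdB n m), h2, zpow_one]

end Abstract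

theorem bar_le {N M : ℕ} [NeZero N] [NeZero M] (h : N ∣ M) :
    modularFunctionFieldBar N ≤ modularFunctionFieldBar M :=
  IntermediateField.adjoin.mono _ _ _ (Set.image_mono (full_degeneracy_le h))

/-- `[F_N : ℚ̄(j)] = ψ(N)`, as a relative degree inside `ℚ̄((q))`. -/
theorem relfinrank_j_bar (N : ℕ) [NeZero N] :
    (Qb⟮S24.jSer 1⟯).relfinrank (modularFunctionFieldBar N) = dedekindPsi N := by
  have h1 := S24.finrank_FN N
  rw [← relfinrank_top_right, ← relfinrank_map_map _ _ (modularFunctionFieldBar N).val,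
    IntermediateField.adjoin_map, ← AlgHom.fieldRange_eq_map, fieldRange_val,
    Set.image_singleton] at h1
  have h2 : Nat.card (S24.XN N) = dedekindPsi N := by
    rw [← Gamma0Comb.index_Gamma0 N]
    rfl
  rw [← h2, ← h1]
  rfl

theorem j_le_bar (N : ℕ) [NeZero N] : Qb⟮S24.jSer 1⟯ ≤ modularFunctionFieldBar N := by
  rw [adjoin_simple_le_iff]
  exact S24.jSer_mem N 1 (one_dvd N)

theorem relfinrank_bar {N M : ℕ} [NeZero N] [NeZero M] (h : N ∣ M) :
    dedekindPsi N * (modularFunctionFieldBar N).relfinrank (modularFunctionFieldBar M)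
      = dedekindPsi M := by
  rw [← relfinrank_j_bar N, ← relfinrank_j_bar M]
  exact relfinrank_mul_relfinrank (j_le_bar N) (bar_le h)

theorem dedekindPsi_ne_zero (N : ℕ) [NeZero N] : dedekindPsi N ≠ 0 := by
  rw [← Gamma0Comb.index_Gamma0 N]
  exact Subgroup.FiniteIndex.index_ne_zero

theorem relfinrank_bar_mul_prime {p N : ℕ} [NeZero N] (hp : p.Prime) (hpN : ¬ p ∣ N) :
    haveI : NeZero (p * N) := ⟨mul_ne_zero hp.ne_zero (NeZero.ne N)⟩
    (modularFunctionFieldBar N).relfinrank (modularFunctionFieldBar (p * N)) = p + 1 := by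
  have : NeZero (p * N) := ⟨mul_ne_zero hp.ne_zero (NeZero.ne N)⟩
  have h1 := relfinrank_bar (dvd_mul_left N p)
  rw [Gamma0Comb.dedekindPsi_mul_of_not_dvd (NeZero.ne N) hp hpN, mul_comm] at h1
  exact mul_right_cancel₀ (dedekindPsi_ne_zero N) h1

/-- **Level descent.** -/
theorem crux_descent (N M ℓ m : ℕ) [NeZero N] [NeZero M] (hNM : N ∣ M)
    (hcop : Nat.Coprime
      ((modularFunctionFieldBar N).relfinrank (modularFunctionFieldBar M)) m)
    (hM : Crux M ℓ m) : Crux N ℓ m := by
  intro A hA y₁ y₂ h₁ h₂ hred hne hdiv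
  have hle := bar_le hNM
  have hn : (modularFunctionFieldBar N).relfinrank (modularFunctionFieldBar M) ≠ 0 := by
    intro h0
    have := relfinrank_bar hNM
    rw [h0, mul_zero] at this
    exact dedekindPsi_ne_zero M this.symm
  have hint := isIntegral_inclusion _ _ hle hn
  obtain ⟨s, hs⟩ := hM A hA y₁ y₂ (hle h₁) (hle h₂) hred hne (by
    intro P
    have h1 := Place.ord_restrictAlong (IntermediateField.inclusion hle) hint P
      ((⟨_, h₁⟩ : FF N) / ⟨_, h₂⟩)
    have h2 : IntermediateField.inclusion hle ((⟨_, h₁⟩ : FF N) / ⟨_, h₂⟩)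
        = (⟨_, hle h₁⟩ : FF M) / ⟨_, hle h₂⟩ := by
      rw [map_div₀]
      rfl
    rw [← h2, h1]
    exact Dvd.dvd.mul_left (hdiv _) _)
  exact exists_root_of_coprime _ _ hle m hcop _ s (by
    have := congrArg Subtype.val hs
    exact this)

end

end Fermat.Agent.Crux
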