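import Fermat.Agent.Crux.PrimeToM
import Fermat.Agent.Crux.LevelDescent

/-!
# CRUX: reduction to prime exponents and admissible levels

`crux_of_core`: CRUX for all `N`, `ℓ ∤ N`, `ℓ ∤ m` follows from CRUX for prime exponents `d ≠ ℓ` at
*admissible* levels (`2 ∣ N` if `ℓ = 3`, `3 ∣ N` if `ℓ = 2`).
-/

set_option autoImplicit false

open AlgebraicCurve ModularCurve

namespace Fermat.Agent.Crux

open Fermat.Agent.ES

/-- Admissible levels for the residue characteristic `ℓ`: there is a base coordinate whose branch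
points stay distinct mod `ℓ`. -/
def Admissible (ℓ N : ℕ) : Prop := (ℓ = 3 → 2 ∣ N) ∧ (ℓ = 2 → 3 ∣ N)

/-- The statement to be provided by `Crux/GM`. -/
def CoreStatement : Prop :=
  ∀ (N ℓ d : ℕ) [NeZero N], ℓ.Prime → d.Prime → d ≠ ℓ → ¬ ℓ ∣ N → Admissible ℓ N → Crux N ℓ d

theorem crux_of_core (core : CoreStatement) (N ℓ m : ℕ) [NeZero N] (hℓ : ℓ.Prime)
    (hN : ¬ ℓ ∣ N) (hm : ¬ ℓ ∣ m) : Crux N ℓ m := by
  by_cases hadm : Admissible ℓ N
  · exact crux_of_prime N ℓ (fun d hd hdℓ => core N ℓ d hℓ hd hdℓ hN hadm) m hm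
  · unfold Admissible at hadm
    rw [not_and_or] at hadm
    rcases hadm with h | h
    · -- `ℓ = 3`, `N` odd
      push Not at h
      obtain ⟨rfl, h2⟩ := h
      have : NeZero (2 * N) := ⟨mul_ne_zero two_ne_zero (NeZero.ne N)⟩
      have hN' : ¬ 3 ∣ 2 * N := fun h =>
        hN ((Nat.Coprime.dvd_mul_left (by norm_num : Nat.Coprime 3 2)).mp h)
      have hadm' : Admissible 3 (2 * N) := ⟨fun _ => dvd_mul_right 2 N, fun h => by omega⟩
      refine crux_descent N (2 * N) 3 m (dvd_mul_left N 2) ?_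
        (crux_of_prime (2 * N) 3 (fun d hd hdℓ => core (2 * N) 3 d hℓ hd hdℓ hN' hadm') m hm)
      rw [relfinrank_bar_mul_prime Nat.prime_two h2]
      exact (Nat.Prime.coprime_iff_not_dvd Nat.prime_three).mpr hm
    · -- `ℓ = 2`, `3 ∤ N`
      push Not at h
      obtain ⟨rfl, h3⟩ := h
      have : NeZero (3 * N) := ⟨mul_ne_zero three_ne_zero (NeZero.ne N)⟩
      have hN' : ¬ 2 ∣ 3 * N := fun h =>
        hN ((Nat.Coprime.dvd_mul_left (by norm_num : Nat.Coprime 2 3)).mp h)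
      have hadm' : Admissible 2 (3 * N) := ⟨fun h => by omega, fun _ => dvd_mul_right 3 N⟩
      refine crux_descent N (3 * N) 2 m (dvd_mul_left N 3) ?_
        (crux_of_prime (3 * N) 2 (fun d hd hdℓ => core (3 * N) 2 d hℓ hd hdℓ hN' hadm') m hm)
      rw [relfinrank_bar_mul_prime Nat.prime_three h3]
      have h2 : Nat.Coprime 2 m := (Nat.Prime.coprime_iff_not_dvd Nat.prime_two).mpr hm
      exact Nat.Coprime.pow_left 2 h2

end Fermat.Agent.Crux
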