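import Fermat.Agent.Crux.Descent
import Fermat.Agent.Crux.GM.Main
import Fermat.Agent.Crux.GM.CoordH

/-!
# CRUX: the final theorem

`Fermat.Agent.Crux.crux : ℓ prime, ℓ ∤ N, ℓ ∤ m → ES.Crux N ℓ m` (quotient form):
two `A`-integral elements of the function field of `X₀(N)` over `ℚ̄` (`A` a valuation ring of `ℚ̄`
above `ℓ`) with the same nonzero reduction, whose quotient has divisor divisible by `m`, differ by an
`m`-th power.

Chain of reductions:
* `Crux/PrimeToM`      : exponents `m` prime to `ℓ`  ⟸ prime exponents `d ≠ ℓ`;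
* `Crux/LevelDescent`  : all levels ⟸ admissible levels (norm trick);
* `Crux/Descent`       : `(ℚ̄, A)` ⟸ `(K₀, A₀)`, `K₀` a number field, `A₀ = A ∩ K₀` a DVR;
* `Crux/GM`            : modular inputs of Theorem G;
* `Crux/G`             : Theorem G (pure algebra).
-/

set_option autoImplicit false

open AlgebraicCurve ModularCurve

namespace Fermat.Agent.Crux

open Fermat.Agent.ES

theorem coreKAt_of_goodCoord (M ℓ d : ℕ) [NeZero M] (hℓ : ℓ.Prime) (hd : d.Prime) (hdℓ : d ≠ ℓ)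
    (xh : LaurentSeries ℤ) (β : ℤ) (n : ℕ) (hx : GM.GoodCoord M ℓ xh β n) :
    CoreKAt M ℓ d ∅ := by
  intro A K k _ _ _ _ _ _ _ _ _ r hr hrℓ _ y₁ y₂ h₁ h₂ hred hne hlc W' hW' hdiv
  exact GM.coreK_of_goodCoord M ℓ hℓ xh β n hx r hr hrℓ d hd hdℓ y₁ y₂ h₁ h₂ hred hne hlc W' hW'
    hdiv

/-- **CRUX** (quotient form). -/
theorem crux (N ℓ m : ℕ) [NeZero N] (hℓ : ℓ.Prime) (hN : ¬ ℓ ∣ N) (hm : ¬ ℓ ∣ m) :
    Crux N ℓ m := by
  refine crux_of_coreK ?_ N ℓ m hℓ hN hm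
  intro M ℓ' d _ hℓ' hd hdℓ hM hadm
  obtain ⟨xh, β, n, hx⟩ := GM.exists_goodCoord M ℓ' hℓ' hM hadm
  exact ⟨∅, coreKAt_of_goodCoord M ℓ' d hℓ' hd hdℓ xh β n hx⟩

end Fermat.Agent.Crux
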