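import Fermat.Agent.ES.B.Pivot

/-!
# CRUX: reduction from prime exponents to arbitrary exponents

`ES.Crux N ℓ d` and `ES.Crux N ℓ m'` imply `ES.Crux N ℓ (d * m')`.
-/

set_option autoImplicit false

open AlgebraicCurve ModularCurve

namespace Fermat.Agent.Crux

open Fermat.Agent.ES

noncomputable section

section Aux

variable {K : Type*} [Field K] (A : ValuationSubring K)

theorem coeffMap_subtype_injective : Function.Injective (coeffMap A.subtype) := by
  intro x y h
  ext n
  have := congrArg (fun s => s.coeff n) h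
  simpa [coeffMap_coeff] using this

theorem coeffMap_C {R S : Type*} [CommRing R] [CommRing S] (f : R →+* S) (r : R) :
    coeffMap f (HahnSeries.C r : LaurentSeries R) = HahnSeries.C (f r) := by
  rw [HahnSeries.C_apply, coeffMap_single, HahnSeries.C_apply]

theorem algebraMap_eq_C (c : K) :
    algebraMap K (LaurentSeries K) c = HahnSeries.C c := by
  have h1 : algebraMap K (PowerSeries K) c = PowerSeries.C c := by simp
  rw [HahnSeries.algebraMap_apply', h1, HahnSeries.ofPowerSeries_C]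

variable {k : Type*} [Field k] (π : A →+* k) (hπ : ∀ a : A, π a ≠ 0 → IsUnit a)

include hπ in
/-- A scalar relating two integral series with nonzero reductions is a unit of `A`. -/
theorem exists_unit_of_scalar (c : K) (u v : LaurentSeries A)
    (hu : coeffMap π u ≠ 0) (hv : coeffMap π v ≠ 0)
    (h : HahnSeries.C c * coeffMap A.subtype u = coeffMap A.subtype v) :
    ∃ c' : A, (c' : K) = c ∧ IsUnit c' := by
  have key : ∀ c' : A, (c' : K) = c → IsUnit c' := by
    intro c' hc'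
    apply hπ
    intro h0
    have h1 : HahnSeries.C c' * u = v := by
      apply coeffMap_subtype_injective A
      rw [map_mul, coeffMap_C, ← h]
      congr 2
    apply hv
    rw [← h1, map_mul, coeffMap_C, h0, map_zero, zero_mul]
  rcases A.mem_or_inv_mem c with hc | hc
  · exact ⟨⟨c, hc⟩, rfl, key _ rfl⟩
  · have hc0 : c ≠ 0 := by
      rintro rfl
      apply hv
      have : v = 0 := by
        apply coeffMap_subtype_injective A
        rw [← h, map_zero, zero_mul, map_zero]
      rw [this, map_zero]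
    have h1 : HahnSeries.C (⟨c⁻¹, hc⟩ : A) * v = u := by
      apply coeffMap_subtype_injective A
      rw [map_mul, coeffMap_C, ← h, ← mul_assoc, ← map_mul]
      show HahnSeries.C (c⁻¹ * c) * _ = _
      rw [inv_mul_cancel₀ hc0, map_one, one_mul]
    have h2 : IsUnit (⟨c⁻¹, hc⟩ : A) := by
      apply hπ
      intro h0
      apply hu
      rw [← h1, map_mul, coeffMap_C, h0, map_zero, zero_mul]
    obtain ⟨w, hw⟩ := h2.exists_right_inv
    have hw' : c⁻¹ * (w : K) = 1 := congrArg Subtype.val hw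
    have hwc : (w : K) = c := by
      field_simp at hw'
      exact hw'
    exact ⟨w, hwc, key w hwc⟩

/-- If `c ^ d` is a unit of `A` then so is `c`. -/
theorem exists_unit_of_pow (c : K) (d : ℕ) (hd : d ≠ 0) (c₁ : A) (hc₁ : (c₁ : K) = c ^ d)
    (hu : IsUnit c₁) : ∃ c' : A, (c' : K) = c ∧ IsUnit c' := by
  have h1 : A.valuation (c₁ : K) = 1 := (A.valuation_eq_one_iff c₁).mp hu
  rw [hc₁, map_pow] at h1
  have h2 : A.valuation c = 1 := (pow_eq_one_iff_of_nonneg zero_le hd).mp h1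
  have hc : c ∈ A := (A.valuation_le_one_iff c).mp h2.le
  exact ⟨⟨c, hc⟩, rfl, (A.valuation_eq_one_iff ⟨c, hc⟩).mpr h2⟩

/-- Roots of unity in `k((q))` lift to `A`, if `K` has a primitive `d`-th root of unity. -/
theorem exists_root_lift (d : ℕ) (hd : d ≠ 0) (z : K) (hz : IsPrimitiveRoot z d)
    (u : LaurentSeries k) (hu : u ^ d = 1) :
    ∃ ζ : A, ζ ^ d = 1 ∧ u = HahnSeries.C (π ζ) := by
  classical
  have hzA : z ∈ A := by
    rcases A.mem_or_inv_mem z with h | h
    · exact h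
    · have : z = (z⁻¹) ^ (d - 1) := by
        have h1 : z ^ d = 1 := hz.pow_eq_one
        have hz0 : z ≠ 0 := hz.ne_zero hd
        obtain ⟨e, rfl⟩ : ∃ e, d = e + 1 := Nat.exists_eq_succ_of_ne_zero hd
        rw [Nat.add_sub_cancel, inv_pow]
        rw [pow_succ] at h1
        field_simp
        rw [mul_comm]
        exact h1
      rw [this]
      exact pow_mem h _
  have hzA' : IsPrimitiveRoot (⟨z, hzA⟩ : A) d :=
    IsPrimitiveRoot.of_map_of_injective (f := A.subtype) hz Subtype.val_injective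
  have h1 := Polynomial.X_pow_sub_one_eq_prod (Nat.pos_of_ne_zero hd) hzA'
  have h2 := congrArg (Polynomial.eval₂ ((HahnSeries.C : k →+* LaurentSeries k).comp π) u) h1
  rw [Polynomial.eval₂_sub, Polynomial.eval₂_pow, Polynomial.eval₂_X, Polynomial.eval₂_one, hu,
    sub_self, Polynomial.eval₂_finsetProd] at h2
  obtain ⟨ζ, hζ, h3⟩ := Finset.prod_eq_zero_iff.mp h2.symm
  rw [Polynomial.eval₂_sub, Polynomial.eval₂_X, Polynomial.eval₂_C, sub_eq_zero] at h3
  exact ⟨ζ, ((Polynomial.mem_nthRootsFinset (Nat.pos_of_ne_zero hd) _).mp hζ), h3⟩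

end Aux


theorem isUnit_of_residue_ne_zero (A : ValuationSubring Qb) (a : A)
    (h : IsLocalRing.residue A a ≠ 0) : IsUnit a := by
  by_contra hu
  exact h ((IsLocalRing.residue_eq_zero_iff a).mpr ((IsLocalRing.mem_maximalIdeal a).mpr hu))

/-- **Multiplicativity of CRUX in the exponent.** -/
theorem crux_mul (N ℓ d m' : ℕ) [NeZero N] (hd0 : d ≠ 0) (hd : Crux N ℓ d) (hm' : Crux N ℓ m') :
    Crux N ℓ (d * m') := by
  intro A hA y₁ y₂ h₁ h₂ hred hne hdiv
  set ι := coeffMap A.subtype with hι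
  set ρ := coeffMap (IsLocalRing.residue A) with hρ
  have hπ := isUnit_of_residue_ne_zero A
  have hy₂ : ι y₂ ≠ 0 := by
    intro h
    apply hne
    have : y₂ = 0 := coeffMap_subtype_injective A (by rw [← hι, h, map_zero])
    rw [this, map_zero]
  have hy₂' : (⟨_, h₂⟩ : FF N) ≠ 0 := fun h => hy₂ (congrArg Subtype.val h)
  have hy₁ : ι y₁ ≠ 0 := by
    intro h
    apply hne
    have : y₁ = 0 := coeffMap_subtype_injective A (by rw [← hι, h, map_zero])
    rw [← hred, this, map_zero]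
  have hy₁' : (⟨_, h₁⟩ : FF N) ≠ 0 := fun h => hy₁ (congrArg Subtype.val h)
  -- first extraction
  obtain ⟨s, hs⟩ := hd A hA y₁ y₂ h₁ h₂ hred hne
    (fun P => dvd_trans (by exact_mod_cast dvd_mul_right d m') (hdiv P))
  have hs0 : s ≠ 0 := by
    rintro rfl
    rw [zero_pow hd0] at hs
    exact div_ne_zero hy₁' hy₂' hs.symm
  obtain ⟨c, a, b, hc, ha, hb, ha', hb', hsab⟩ := exists_integral_fraction N A s hs0
  rw [algebraMap_eq_C] at hsab
  -- the relation between `d`-th powers
  have hs' : (s : LaurentSeries Qb) ^ d * ι y₂ = ι y₁ := by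
    have : s ^ d * (⟨_, h₂⟩ : FF N) = ⟨_, h₁⟩ := by rw [hs, div_mul_cancel₀ _ hy₂']
    exact congrArg Subtype.val this
  have hrel : HahnSeries.C (c ^ d) * ι (a ^ d * y₂) = ι (y₁ * b ^ d) := by
    rw [map_mul, map_mul, map_pow, map_pow, map_pow, ← hs', ← mul_assoc, ← mul_pow, ← hsab]
    ring
  obtain ⟨c₁, hc₁, hc₁u⟩ := exists_unit_of_scalar A (IsLocalRing.residue A) hπ (c ^ d)
    (a ^ d * y₂) (y₁ * b ^ d)
    (by rw [map_mul, map_pow]; exact mul_ne_zero (pow_ne_zero _ ha') hne)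
    (by rw [map_mul, map_pow, ← hρ, hred]; exact mul_ne_zero hne (pow_ne_zero _ hb')) hrel
  obtain ⟨c', hc', hc'u⟩ := exists_unit_of_pow A c d hd0 c₁ hc₁ hc₁u
  -- `a' = c' a`
  set a' : LaurentSeries A := HahnSeries.C c' * a with ha'def
  have hιa' : ι a' = (s : LaurentSeries Qb) * ι b := by
    rw [ha'def, map_mul, hι, coeffMap_C, hsab]
    congr 2
  have hrel' : a' ^ d * y₂ = y₁ * b ^ d := by
    apply coeffMap_subtype_injective A
    rw [← hι, map_mul, map_mul, map_pow, map_pow, hιa', ← hs']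
    ring
  have hρrel : (ρ a' / ρ b) ^ d = 1 := by
    have h1 := congrArg ρ hrel'
    rw [map_mul, map_mul, map_pow, map_pow, hred] at h1
    rw [div_pow, div_eq_one_iff_eq (pow_ne_zero _ hb')]
    have h2 : ρ a' ^ d * ρ y₂ = ρ b ^ d * ρ y₂ := by rw [h1, mul_comm]
    exact mul_right_cancel₀ hne h2
  have : NeZero ((d : ℕ) : Qb) := ⟨by exact_mod_cast hd0⟩
  obtain ⟨z, hz⟩ := HasEnoughRootsOfUnity.exists_primitiveRoot Qb d
  obtain ⟨ζ, hζ, hζu⟩ := exists_root_lift A (IsLocalRing.residue A) d hd0 z hz _ hρrel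
  -- normalise
  obtain ⟨e, rfl⟩ : ∃ e, d = e + 1 := Nat.exists_eq_succ_of_ne_zero hd0
  set a'' : LaurentSeries A := HahnSeries.C (ζ ^ e) * a' with ha''def
  set s'' : FF N := algebraMap Qb (FF N) ((ζ : Qb) ^ e) * s with hs''def
  have hιa'' : ι a'' = (s'' : LaurentSeries Qb) * ι b := by
    rw [ha''def, map_mul, hιa', hι, coeffMap_C, hs''def, ← mul_assoc]
    congr 2
    show _ = algebraMap Qb (LaurentSeries Qb) ((ζ : Qb) ^ e)
    rw [algebraMap_eq_C]
    rfl
  have hbne : ι b ≠ 0 := by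
    intro h
    apply hb'
    have : b = 0 := coeffMap_subtype_injective A (by rw [← hι, h, map_zero])
    rw [this, map_zero]
  have hbne' : (⟨_, hb⟩ : FF N) ≠ 0 := fun h => hbne (congrArg Subtype.val h)
  have ha''mem : ι a'' ∈ modularFunctionFieldBar N := by
    rw [hιa'']
    exact mul_mem s''.2 hb
  have hs''eq : (⟨_, ha''mem⟩ : FF N) / ⟨_, hb⟩ = s'' := by
    rw [div_eq_iff hbne']
    exact Subtype.ext hιa''
  have hρa'' : ρ a'' = ρ b := by
    rw [ha''def, map_mul, hρ, coeffMap_C, ← hρ]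
    have h1 : ρ a' = HahnSeries.C (IsLocalRing.residue A ζ) * ρ b := by
      rw [← hζu, div_mul_cancel₀ _ hb']
    rw [h1, ← mul_assoc, ← map_mul, ← map_mul, ← pow_succ, hζ, map_one, map_one, one_mul]
  have hs''pow : s'' ^ (e + 1) = (⟨_, h₁⟩ : FF N) / ⟨_, h₂⟩ := by
    rw [hs''def, mul_pow, hs, ← map_pow, ← pow_mul, mul_comm e, pow_mul]
    have : (ζ : Qb) ^ (e + 1) = 1 := congrArg Subtype.val hζ
    rw [this, one_pow, map_one, one_mul]
  obtain ⟨t, ht⟩ := hm' A hA a'' b ha''mem hb hρa'' hb' (by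
    intro P
    rw [hs''eq]
    have h1 := hdiv P
    rw [← hs''pow] at h1
    have h2 : P.ord (s'' ^ (e + 1)) = ((e + 1 : ℕ) : ℤ) * P.ord s'' := by
      rw [← zpow_natCast, P.ord_zpow]
    rw [h2] at h1
    push_cast at h1
    exact (mul_dvd_mul_iff_left (by positivity)).mp h1)
  refine ⟨t, ?_⟩
  rw [mul_comm, pow_mul, ht, hs''eq, hs''pow]

/-- CRUX for all prime exponents `≠ ℓ` implies CRUX for all exponents prime to `ℓ`. -/
theorem crux_of_prime (N ℓ : ℕ) [NeZero N] (h : ∀ d : ℕ, d.Prime → d ≠ ℓ → Crux N ℓ d)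
    (m : ℕ) (hm : ¬ ℓ ∣ m) : Crux N ℓ m := by
  induction m using Nat.recOnMul with
  | zero => exact absurd (dvd_zero ℓ) hm
  | one =>
    intro A hA y₁ y₂ h₁ h₂ hred hne hdiv
    exact ⟨_, pow_one _⟩
  | prime p hp =>
    exact h p hp (by rintro rfl; exact hm dvd_rfl)
  | mul a b iha ihb =>
    have ha : ¬ ℓ ∣ a := fun h => hm (h.mul_right b)
    have hb : ¬ ℓ ∣ b := fun h => hm (h.mul_left a)
    refine crux_mul N ℓ a b ?_ (iha ha) (ihb hb)
    rintro rfl
    exact ha (dvd_zero ℓ)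

end

end Fermat.Agent.Crux
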